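import Fermat.Agent.S48.F1.Defs

/-!
# S48 / Tower A1 / A1-FF (helper496): the division values `P_a` are distinct up to sign

`F1.divGenC K M a = F1.divGenC K M b → a = b ∨ a = -b` over any commutative ring `K` of
characteristic zero (pure arithmetic on the coefficients `F1.divCoeff M a 12 n`: the order of the
series `∑ c_a(n) qⁿ` is the least `m ≥ 1` with `m ≡ ± a` mod `M`).
-/

set_option autoImplicit false

noncomputable section

open PowerSeries HahnSeries ModularCurve

namespace Fermat.Agent.S48.H496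

open Fermat.Agent.S48.F1

/-- the residues `± a`, as a predicate on positive integers. -/
def DivHit (M : ℕ) (a : ZMod M) (m : ℕ) : Prop :=
  0 < m ∧ (((m : ℕ) : ZMod M) = a ∨ ((m : ℕ) : ZMod M) = -a)

theorem divHit_exists (M : ℕ) [NeZero M] (a : ZMod M) : ∃ m, DivHit M a m := by
  refine ⟨a.val + M, ?_, Or.inl ?_⟩
  · have := Nat.pos_of_ne_zero (NeZero.ne M)
    omega
  · simp

theorem divCoeff_nonneg (M : ℕ) (a : ZMod M) (n : ℕ) : 0 ≤ divCoeff M a 12 n := by
  unfold divCoeff
  refine Finset.sum_nonneg fun m _ => add_nonneg ?_ ?_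
  · split_ifs
    · positivity
    · exact le_rfl
  · split_ifs
    · norm_num
      positivity
    · exact le_rfl

/-- a non-vanishing coefficient forces a divisor in the class `± a`. -/
theorem divHit_of_divCoeff_ne_zero (M : ℕ) (a : ZMod M) (n : ℕ) (h : divCoeff M a 12 n ≠ 0) :
    ∃ m, m ∣ n ∧ DivHit M a m := by
  by_contra hcon
  apply h
  unfold divCoeff
  refine Finset.sum_eq_zero fun m hm => ?_
  have hmn : m ∣ n := Nat.dvd_of_mem_divisors hm
  have hm0 : 0 < m := Nat.pos_of_mem_divisors hm
  have h1 : ¬ ((m : ℕ) : ZMod M) = a := fun e => hcon ⟨m, hmn, hm0, Or.inl e⟩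
  have h2 : ¬ ((m : ℕ) : ZMod M) = -a := fun e => hcon ⟨m, hmn, hm0, Or.inr e⟩
  rw [if_neg h1, if_neg h2, add_zero]

/-- the coefficient at a hit is positive. -/
theorem divCoeff_pos_of_divHit (M : ℕ) (a : ZMod M) (n : ℕ) (h : DivHit M a n) :
    0 < divCoeff M a 12 n := by
  obtain ⟨hn, hcl⟩ := h
  unfold divCoeff
  have hmem : n ∈ n.divisors := Nat.mem_divisors_self n hn.ne'
  have hnn : ∀ m ∈ n.divisors, (0 : ℤ) ≤
      ((if ((m : ℕ) : ZMod M) = a then ((n / m : ℕ) : ℤ) ^ (12 - 1) else 0) +
        (if ((m : ℕ) : ZMod M) = -a then (-1) ^ 12 * ((n / m : ℕ) : ℤ) ^ (12 - 1) else 0)) := by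
    intro m _
    refine add_nonneg ?_ ?_
    · split_ifs
      · positivity
      · exact le_rfl
    · split_ifs
      · norm_num
        positivity
      · exact le_rfl
  refine lt_of_lt_of_le ?_ (Finset.single_le_sum hnn hmem)
  rw [Nat.div_self hn]
  rcases hcl with e | e
  · rw [if_pos e]
    have : (0 : ℤ) ≤ (if ((n : ℕ) : ZMod M) = -a then (-1) ^ 12 * (((1 : ℕ) : ℤ)) ^ (12 - 1)
        else 0) := by
      split_ifs <;> norm_num
    have h1 : (0 : ℤ) < (((1 : ℕ) : ℤ)) ^ (12 - 1) := by norm_num
    linarith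
  · rw [if_pos e]
    have : (0 : ℤ) ≤ (if ((n : ℕ) : ZMod M) = a then (((1 : ℕ) : ℤ)) ^ (12 - 1) else 0) := by
      split_ifs <;> norm_num
    have h1 : (0 : ℤ) < (-1) ^ 12 * (((1 : ℕ) : ℤ)) ^ (12 - 1) := by norm_num
    linarith

/-- **Distinctness of the coefficient sequences.** -/
theorem eq_or_eq_neg_of_divCoeff_eq (M : ℕ) [NeZero M] (a b : ZMod M)
    (h : ∀ n, divCoeff M a 12 n = divCoeff M b 12 n) : a = b ∨ a = -b := by
  classical
  have ha := divHit_exists M a
  have hb := divHit_exists M b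
  -- least hits
  set na := Nat.find ha with hna
  set nb := Nat.find hb with hnb
  have hna_hit : DivHit M a na := Nat.find_spec ha
  have hnb_hit : DivHit M b nb := Nat.find_spec hb
  -- the coefficient of `b` at `na` is nonzero, so some divisor of `na` hits `b`
  have h1 : divCoeff M b 12 na ≠ 0 := by
    rw [← h na]
    exact (divCoeff_pos_of_divHit M a na hna_hit).ne'
  obtain ⟨m, hm, hmb⟩ := divHit_of_divCoeff_ne_zero M b na h1
  have h2 : divCoeff M a 12 nb ≠ 0 := by
    rw [h nb]
    exact (divCoeff_pos_of_divHit M b nb hnb_hit).ne'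
  obtain ⟨m', hm', hma⟩ := divHit_of_divCoeff_ne_zero M a nb h2
  have e1 : nb ≤ m := Nat.find_min' hb hmb
  have e2 : m ≤ na := Nat.le_of_dvd hna_hit.1 hm
  have e3 : na ≤ m' := Nat.find_min' ha hma
  have e4 : m' ≤ nb := Nat.le_of_dvd hnb_hit.1 hm'
  have e5 : m = na := le_antisymm e2 (by omega)
  rw [e5] at hmb
  rcases hna_hit.2 with p | p <;> rcases hmb.2 with q | q
  · exact Or.inl (p.symm.trans q)
  · exact Or.inr (p.symm.trans q)
  · right
    rw [← q, p, neg_neg]
  · left
    have := p.symm.trans q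
    exact neg_injective this

theorem divSeries_injective (M : ℕ) [NeZero M] (a b : ZMod M)
    (h : divSeries M a 12 = divSeries M b 12) : a = b ∨ a = -b := by
  refine eq_or_eq_neg_of_divCoeff_eq M a b fun n => ?_
  rw [← coeff_divSeries, ← coeff_divSeries, h]

theorem divNum_injective (M : ℕ) [NeZero M] (a b : ZMod M) (h : divNum M a = divNum M b) :
    a = b ∨ a = -b := by
  apply divSeries_injective
  have h1 := congrArg (fun x => x * dedekindEtaUnit) h
  simp only [divNum, mul_assoc] at h1
  rw [mul_comm dedekindEtaUnitInv, dedekindEtaUnit_mul_inv, mul_one, mul_one] at h1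
  exact h1

/-- **Distinctness of the division values** `P_a` over a ring of characteristic zero. -/
theorem divGenC_injective (K : Type*) [CommRing K] [CharZero K] (M : ℕ) [NeZero M]
    (a b : ZMod M) (h : divGenC K M a = divGenC K M b) : a = b ∨ a = -b := by
  apply divNum_injective
  have h1 := congrArg (fun x => HahnSeries.single (1 : ℤ) (1 : K) * x) h
  simp only [divGenC, ← mul_assoc, HahnSeries.single_mul_single] at h1
  norm_num at h1
  have h3 := HahnSeries.ofPowerSeries_injective h1
  exact PowerSeries.map_injective (Int.castRingHom K) Int.cast_injective h3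

end Fermat.Agent.S48.H496
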