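import Fermat.Agent.S48.H496.IF1

/-!
# S48 / Tower A1 / A1-FF (helper496): expansions of the `Γ₁(M)`-invariants (DICT1, `E`-rational form)

With the hypotheses of `IF1.lean` (avatars `P a ∈ iactRing ι M` of the division values with
`X`-expansion `qExpand M (F1.divGenC E M a)`):

* `iactFieldExp_mem_of_mem_F1` : the `X`-expansion of every element of `iactF1 = E(j_d, P_a)` is
  `y(X^M)` for some `y ∈ E · F1(M) = laurentBaseChange E (F1 M)`;
* `dict1` : the same for every `Γ₁(M)`-invariant element of `IActField ι M`.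
-/

set_option autoImplicit false
set_option linter.unusedSectionVars false

noncomputable section

open ModularCurve HahnSeries UpperHalfPlane
open scoped MatrixGroups Manifold

namespace Fermat.Agent.S48.H496

open Fermat.Agent.S24 Fermat.Agent.S24.H997 Fermat.Agent.S24.H624 Fermat.Agent.S20.L1
open Fermat.Agent.S48.H828

variable {E : Type*} [Field E] [CharZero E] {ι : E →+* ℂ} {M : ℕ} [NeZero M]
variable (ζ : Eˣ) (hζ : Units.map (ι : E →* ℂ) ζ = infRoot 1 M) (P : ZMod M → iactRing ι M)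

variable (E M) in
/-- The subfield `{y(X^M) : y ∈ E · F1(M)}` of `E((X))`. -/
def f1XField : Subfield (LaurentSeries E) :=
  (laurentBaseChange E (F1.F1 M)).toSubfield.map (qExpand E M)

theorem mem_f1XField {z : LaurentSeries E} :
    z ∈ f1XField E M ↔ ∃ y ∈ laurentBaseChange E (F1.F1 M), qExpand E M y = z := by
  rw [f1XField, Subfield.mem_map]
  rfl

theorem C_mem_f1XField (c : E) : HahnSeries.C c ∈ f1XField E M := by
  rw [mem_f1XField]
  refine ⟨algebraMap E (LaurentSeries E) c, (laurentBaseChange E (F1.F1 M)).algebraMap_mem c, ?_⟩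
  rw [F1.algebraMap_laurent_eq_single]
  exact qExpand_C (R := E) (N := M) c

theorem jd_mem_f1XField (d : ℕ) [NeZero d] (hd : d ∣ M) :
    qExpand E M (qExpand E d (coeffEmb E jq)) ∈ f1XField E M := by
  rw [mem_f1XField]
  refine ⟨qExpand E d (coeffEmb E jq), ?_, rfl⟩
  rw [F1.qExpand_coeffEmb]
  exact coeffEmb_mem_laurentBaseChange E (F1.jqd_mem_F1 M hd)

theorem divGenC_mem_lbc {a : ZMod M} (ha : a ≠ 0) :
    F1.divGenC E M a ∈ laurentBaseChange E (F1.F1 M) := by
  have h : coeffEmb E (F1.divGen M a) = F1.divGenC E M a := by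
    rw [coeffEmb, F1.divGen, F1.coeffMap_divGenC]
  rw [← h]
  exact coeffEmb_mem_laurentBaseChange E (F1.divGen_mem_F1 M ha)

theorem divGenC_mem_f1XField {a : ZMod M} (ha : a ≠ 0) :
    qExpand E M (F1.divGenC E M a) ∈ f1XField E M := by
  rw [mem_f1XField]
  exact ⟨_, divGenC_mem_lbc ha, rfl⟩

theorem iactFieldExp_mem_of_mem_F0 (x : IActField ι M) (hx : x ∈ iactF0 ζ hζ) :
    iactFieldExp ι M x ∈ f1XField E M := by
  have hM : 0 < M := Nat.pos_of_ne_zero (NeZero.ne M)
  have hle : iactF0 ζ hζ ≤ (f1XField E M).comap (iactFieldExp ι M) := by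
    rw [iactF0, Subfield.closure_le]
    rintro y (⟨c, rfl⟩ | ⟨d, hd, rfl⟩)
    · show iactFieldExp ι M (iactFC ι M c) ∈ f1XField E M
      rw [iactFieldExp_C]
      exact C_mem_f1XField c
    · show iactFieldExp ι M (iactFJd ζ hζ d hd) ∈ f1XField E M
      have : NeZero d := ⟨(Nat.pos_of_dvd_of_pos hd hM).ne'⟩
      rw [iactFieldExp_Jd]
      exact jd_mem_f1XField d hd
  exact hle hx

/-- The `X`-expansion of an element of `E(j_d, P_a)` is `y(X^M)` with `y ∈ E · F1(M)`. -/
theorem iactFieldExp_mem_of_mem_F1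
    (hexp : ∀ a : ZMod M, a ≠ 0 → iactExp ι M (P a) = qExpand E M (F1.divGenC E M a))
    (x : IActField ι M) (hx : x ∈ iactF1 ζ hζ P) :
    iactFieldExp ι M x ∈ f1XField E M := by
  have hle : iactF1 ζ hζ P ≤ (f1XField E M).comap (iactFieldExp ι M) := by
    rw [iactF1, Subfield.closure_le]
    rintro y (hy | ⟨a, ha, rfl⟩)
    · exact iactFieldExp_mem_of_mem_F0 ζ hζ y hy
    · show iactFieldExp ι M (algebraMap (iactRing ι M) (IActField ι M) (P a)) ∈ f1XField E M
      rw [iactFieldExp_algebraMap, hexp a ha]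
      exact divGenC_mem_f1XField ha
  exact hle hx

include ζ hζ in
/-- **DICT1, `E`-rational form.** The `X`-expansion of a `Γ₁(M)`-invariant element of
`IActField ι M` is `y(X^M)` for some `y ∈ E · F1(M)`. -/
theorem dict1
    (hcomp : ∀ g ∈ CongruenceSubgroup.Gamma0 M, ∀ a : ZMod M, a ≠ 0 →
      compSL g (P a : ℍ → ℂ) = (P (a * ((g 0 0 : ℤ) : ZMod M)) : ℍ → ℂ))
    (hexp : ∀ a : ZMod M, a ≠ 0 → iactExp ι M (P a) = qExpand E M (F1.divGenC E M a))
    (x : IActField ι M) (hx : ∀ b ∈ iactB1 ι M, b x = x) :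
    ∃ y ∈ laurentBaseChange E (F1.F1 M), qExpand E M y = iactFieldExp ι M x :=
  mem_f1XField.mp
    (iactFieldExp_mem_of_mem_F1 ζ hζ P hexp x (iactB1_inv_of_exp ζ hζ P hcomp hexp x hx))

include ζ hζ in
/-- **DICT1 for holomorphic functions.** If `f ∈ iactRing ι M` is `Γ₁(M)`-invariant and has the
`q`-expansion `φ(X^M)`, then `φ ∈ E · F1(M)`. -/
theorem dict1_ring
    (hcomp : ∀ g ∈ CongruenceSubgroup.Gamma0 M, ∀ a : ZMod M, a ≠ 0 →
      compSL g (P a : ℍ → ℂ) = (P (a * ((g 0 0 : ℤ) : ZMod M)) : ℍ → ℂ))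
    (hexp : ∀ a : ZMod M, a ≠ 0 → iactExp ι M (P a) = qExpand E M (F1.divGenC E M a))
    (f : iactRing ι M) (hf : ∀ γ ∈ CongruenceSubgroup.Gamma1 M, γ • f = f)
    (φ : LaurentSeries E) (hφ : iactExp ι M f = qExpand E M φ) :
    φ ∈ laurentBaseChange E (F1.F1 M) := by
  obtain ⟨y, hy, hyx⟩ := dict1 ζ hζ P hcomp hexp (algebraMap (iactRing ι M) (IActField ι M) f)
    (by
      rintro b ⟨γ, hγ, rfl⟩
      show γ • algebraMap (iactRing ι M) (IActField ι M) f = _
      rw [iact_smul_algebraMap, hf γ hγ])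
  rw [iactFieldExp_algebraMap, hφ] at hyx
  rw [← qExpand_injective (R := E) M hyx]
  exact hy

end Fermat.Agent.S48.H496
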