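import Fermat.Agent.S48.H828.IActJd
import Fermat.Agent.S48.H496.DivDistinct

/-!
# S48 / Tower A1 / A1-FF, piece I-F1 (helper496): the invariants of `Γ₁(M)`

On `Ω := H828.IActField ι M` (level-`M` modular functions, `E`-rational at all cusps, `ζ_M ∈ E`),
let `P : ZMod M → iactRing ι M` be ANY family of avatars of the division values with

* `hcomp` : `compSL g (P a) = P (a * g₀₀)` for `g ∈ Γ₀(M)`, `a ≠ 0`   (helper76 `Avatar`),
* `hexp`  : `iactExp (P a) = qExpand M (F1.divGenC E M a)` for `a ≠ 0`  (helper668 bridge)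
  (only used through `hinj : P a = P 1 → a = ± 1`).

Then

* `iactB1 ι M` := image of `Γ₁(M)` in `Ω ≃+* Ω`;  `iactF1 ζ hζ P := E(j(dτ) (d ∣ M), P_a (a ≠ 0))`;
* `iactB1_inv` (**I-F1**) : every `Γ₁(M)`-invariant element of `Ω` lies in `iactF1`;
* `iactB1_fix` : conversely every element of `iactF1` is `Γ₁(M)`-invariant;
* `iactB1_fixed_iff`, and the same with `hexp` instead of `hinj` (`…_of_exp`).

Also `iactRho_neg` : `-γ` and `γ` act in the same way.
-/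

set_option autoImplicit false
set_option linter.unusedSectionVars false

noncomputable section

open ModularCurve HahnSeries UpperHalfPlane
open scoped MatrixGroups Manifold

namespace Fermat.Agent.S48.H496

open Fermat.Agent.S24 Fermat.Agent.S24.H997 Fermat.Agent.S24.H624 Fermat.Agent.S20.L1
open Fermat.Agent.S48.H828

variable {E : Type*} [Field E] [CharZero E] {ι : E →+* ℂ} {M : ℕ} [NeZero M]

/-! ### `-γ` acts like `γ` -/

theorem iact_neg_smul_ring (γ : SL(2, ℤ)) (f : iactRing ι M) : (-γ) • f = γ • f := by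
  apply Subtype.ext
  funext τ
  rw [iact_smul_apply, iact_smul_apply]
  have h : (-γ)⁻¹ = -γ⁻¹ := by
    rw [eq_comm, eq_inv_iff_mul_eq_one]
    simp
  rw [h, ModularGroup.SL_neg_smul]

theorem iact_neg_smul (γ : SL(2, ℤ)) (x : IActField ι M) : (-γ) • x = γ • x := by
  obtain ⟨a, b, -, rfl⟩ := IsFractionRing.div_surjective (A := iactRing ι M) x
  rw [smul_div₀', smul_div₀', iact_smul_algebraMap, iact_smul_algebraMap, iact_smul_algebraMap,
    iact_smul_algebraMap, iact_neg_smul_ring, iact_neg_smul_ring]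

theorem iactRho_neg (γ : SL(2, ℤ)) : iactRho ι M (-γ) = iactRho ι M γ :=
  RingEquiv.ext fun x => iact_neg_smul γ x

/-! ### the group `B₁` and the field `F₁` -/

variable (ι M) in
/-- `B₁`: the image of `Γ₁(M)`. -/
def iactB1 : Subgroup (IActField ι M ≃+* IActField ι M) :=
  (CongruenceSubgroup.Gamma1 M).map (iactRho ι M)

theorem iact_Gamma1_le_Gamma0 {γ : SL(2, ℤ)} (hγ : γ ∈ CongruenceSubgroup.Gamma1 M) :
    γ ∈ CongruenceSubgroup.Gamma0 M := by
  rw [CongruenceSubgroup.Gamma0_mem]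
  exact (CongruenceSubgroup.Gamma1_mem M γ).mp hγ |>.2.2

theorem iactB1_le_B : iactB1 ι M ≤ iactB ι M := by
  rintro σ ⟨g, hg, rfl⟩
  exact ⟨g, iact_Gamma1_le_Gamma0 hg, rfl⟩

theorem iactB1_le_G : iactB1 ι M ≤ iactG ι M := iactB1_le_B.trans iactB_le

variable (ζ : Eˣ) (hζ : Units.map (ι : E →* ℂ) ζ = infRoot 1 M) (P : ZMod M → iactRing ι M)

/-- The field `E(j(dτ) (d ∣ M), P_a (a ≠ 0))` inside `IActField ι M`. -/
def iactF1 : Subfield (IActField ι M) :=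
  Subfield.closure ((iactF0 ζ hζ : Set (IActField ι M)) ∪
    {y | ∃ a : ZMod M, a ≠ 0 ∧ y = algebraMap (iactRing ι M) (IActField ι M) (P a)})

theorem iactF0_le_F1 : iactF0 ζ hζ ≤ iactF1 ζ hζ P :=
  fun _ hx => Subfield.subset_closure (Or.inl hx)

theorem iactP_mem_F1 {a : ZMod M} (ha : a ≠ 0) :
    algebraMap (iactRing ι M) (IActField ι M) (P a) ∈ iactF1 ζ hζ P :=
  Subfield.subset_closure (Or.inr ⟨a, ha, rfl⟩)

theorem iactFC_mem_F1 (c : E) : iactFC ι M c ∈ iactF1 ζ hζ P :=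
  iactF0_le_F1 ζ hζ P (iactFC_mem_F0 ζ hζ c)

theorem iactFJd_mem_F1 (d : ℕ) (hd : d ∣ M) : iactFJd ζ hζ d hd ∈ iactF1 ζ hζ P :=
  iactF0_le_F1 ζ hζ P (iactFJd_mem_F0 ζ hζ d hd)

/-! ### I-F1 -/

/-- **I-F1**, abstract separation form. -/
theorem iactB1_inv_of_sep
    (hsep : ∀ γ ∈ CongruenceSubgroup.Gamma0 M, (∀ a : ZMod M, a ≠ 0 → γ • P a = P a) →
      γ ∈ CongruenceSubgroup.Gamma1 M ∨ -γ ∈ CongruenceSubgroup.Gamma1 M)
    (x : IActField ι M) (hx : ∀ b ∈ iactB1 ι M, b x = x) : x ∈ iactF1 ζ hζ P := by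
  have : Finite (iactG ι M) := iactG_finite
  refine iact_mem_of_fixed (G := iactG ι M) ((iactB1 ι M).subgroupOf (iactG ι M))
    (iactF1 ζ hζ P) ?_ ?_ x ?_
  · intro y hy
    apply iactF0_le_F1 ζ hζ P
    exact iactB_inv ζ hζ y (fun b hb => hy ⟨b, iactB_le hb⟩)
  · rintro ⟨g, γ, rfl⟩ hg
    rw [Subgroup.mem_subgroupOf]
    have hγ0 : γ ∈ CongruenceSubgroup.Gamma0 M := by
      apply iact_mem_Gamma0_of_smul_JM ζ hζ
      have h1 := hg _ (iactFJd_mem_F1 ζ hζ P M dvd_rfl)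
      have h2 : γ • iactFJd ζ hζ M dvd_rfl = iactFJd ζ hζ M dvd_rfl := h1
      rw [iactFJd, iact_smul_algebraMap] at h2
      exact IsFractionRing.injective (iactRing ι M) (IActField ι M) h2
    have hfix : ∀ a : ZMod M, a ≠ 0 → γ • P a = P a := by
      intro a ha
      have h1 := hg _ (iactP_mem_F1 ζ hζ P ha)
      have h2 : γ • algebraMap (iactRing ι M) (IActField ι M) (P a)
          = algebraMap (iactRing ι M) (IActField ι M) (P a) := h1
      rw [iact_smul_algebraMap] at h2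
      exact IsFractionRing.injective (iactRing ι M) (IActField ι M) h2
    rcases hsep γ hγ0 hfix with h | h
    · exact ⟨γ, h, rfl⟩
    · exact ⟨-γ, h, iactRho_neg γ⟩
  · rintro ⟨b, hbG⟩ hb
    rw [Subgroup.mem_subgroupOf] at hb
    exact hx b hb

/-- the separation hypothesis from the transformation law under `Γ₀(M)` and distinctness. -/
theorem iact_sep_of_comp
    (hcomp : ∀ g ∈ CongruenceSubgroup.Gamma0 M, ∀ a : ZMod M, a ≠ 0 →
      compSL g (P a : ℍ → ℂ) = (P (a * ((g 0 0 : ℤ) : ZMod M)) : ℍ → ℂ))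
    (hinj : ∀ a : ZMod M, a ≠ 0 → P a = P 1 → a = 1 ∨ a = -1)
    (γ : SL(2, ℤ)) (hγ : γ ∈ CongruenceSubgroup.Gamma0 M)
    (hfix : ∀ a : ZMod M, a ≠ 0 → γ • P a = P a) :
    γ ∈ CongruenceSubgroup.Gamma1 M ∨ -γ ∈ CongruenceSubgroup.Gamma1 M := by
  have hc : ((γ 1 0 : ℤ) : ZMod M) = 0 := CongruenceSubgroup.Gamma0_mem.mp hγ
  have hdet : γ 0 0 * γ 1 1 - γ 0 1 * γ 1 0 = 1 := by
    have := γ.det_coe
    rw [Matrix.det_fin_two] at this
    exact this
  have hdet' : ((γ 0 0 : ℤ) : ZMod M) * ((γ 1 1 : ℤ) : ZMod M) = 1 := by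
    have := congrArg (fun z : ℤ => (z : ZMod M)) hdet
    simp only [Int.cast_sub, Int.cast_mul, Int.cast_one, hc, mul_zero, sub_zero] at this
    exact this
  by_cases h1 : (1 : ZMod M) = 0
  · -- `M = 1`: everything is in `Γ₁`
    left
    have hsub : ∀ x y : ZMod M, x = y := by
      intro x y
      rw [← mul_one x, ← mul_one y, h1, mul_zero, mul_zero]
    rw [CongruenceSubgroup.Gamma1_mem]
    exact ⟨hsub _ _, hsub _ _, hsub _ _⟩
  · have hu0 : ((γ 1 1 : ℤ) : ZMod M) ≠ 0 := by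
      intro h0
      rw [h0, mul_zero] at hdet'
      exact h1 hdet'.symm
    have hγinv : γ⁻¹ ∈ CongruenceSubgroup.Gamma0 M := inv_mem hγ
    have h00 : (γ⁻¹ : SL(2, ℤ)) 0 0 = γ 1 1 := by
      rw [Matrix.SpecialLinearGroup.SL2_inv_expl]
      rfl
    have hP : P ((γ 1 1 : ℤ) : ZMod M) = P 1 := by
      have e1 := hfix 1 h1
      have e2 : ((γ • P 1 : iactRing ι M) : ℍ → ℂ) = compSL γ⁻¹ (P 1 : ℍ → ℂ) := rfl
      have e3 := hcomp γ⁻¹ hγinv 1 h1
      rw [h00, one_mul] at e3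
      apply Subtype.ext
      rw [← e3, ← e2, e1]
    rcases hinj _ hu0 hP with h | h
    · left
      rw [CongruenceSubgroup.Gamma1_mem]
      refine ⟨?_, h, hc⟩
      rw [h, mul_one] at hdet'
      exact hdet'
    · right
      rw [CongruenceSubgroup.Gamma1_mem]
      have e00 : ((-γ : SL(2, ℤ)) 0 0 : ℤ) = -(γ 0 0) := rfl
      have e11 : ((-γ : SL(2, ℤ)) 1 1 : ℤ) = -(γ 1 1) := rfl
      have e10 : ((-γ : SL(2, ℤ)) 1 0 : ℤ) = -(γ 1 0) := rfl
      rw [e00, e11, e10]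
      push_cast
      rw [h] at hdet' ⊢
      rw [hc]
      refine ⟨?_, by ring, by ring⟩
      linear_combination hdet'

/-- distinctness from the `X`-expansions. -/
theorem iact_inj_of_exp
    (hexp : ∀ a : ZMod M, a ≠ 0 → iactExp ι M (P a) = qExpand E M (F1.divGenC E M a))
    (a b : ZMod M) (ha : a ≠ 0) (hb : b ≠ 0) (h : P a = P b) : a = b ∨ a = -b := by
  apply divGenC_injective E M a b
  apply qExpand_injective (R := E) M
  rw [← hexp a ha, ← hexp b hb, h]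

/-- **I-F1.** Every `Γ₁(M)`-invariant element of `IActField ι M` lies in
`E(j(dτ) (d ∣ M), P_a (a ≠ 0))`. -/
theorem iactB1_inv
    (hcomp : ∀ g ∈ CongruenceSubgroup.Gamma0 M, ∀ a : ZMod M, a ≠ 0 →
      compSL g (P a : ℍ → ℂ) = (P (a * ((g 0 0 : ℤ) : ZMod M)) : ℍ → ℂ))
    (hinj : ∀ a : ZMod M, a ≠ 0 → P a = P 1 → a = 1 ∨ a = -1)
    (x : IActField ι M) (hx : ∀ b ∈ iactB1 ι M, b x = x) : x ∈ iactF1 ζ hζ P :=
  iactB1_inv_of_sep ζ hζ P (iact_sep_of_comp P hcomp hinj) x hx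

/-- **I-F1**, with the `X`-expansions as input. -/
theorem iactB1_inv_of_exp
    (hcomp : ∀ g ∈ CongruenceSubgroup.Gamma0 M, ∀ a : ZMod M, a ≠ 0 →
      compSL g (P a : ℍ → ℂ) = (P (a * ((g 0 0 : ℤ) : ZMod M)) : ℍ → ℂ))
    (hexp : ∀ a : ZMod M, a ≠ 0 → iactExp ι M (P a) = qExpand E M (F1.divGenC E M a))
    (x : IActField ι M) (hx : ∀ b ∈ iactB1 ι M, b x = x) : x ∈ iactF1 ζ hζ P := by
  refine iactB1_inv ζ hζ P hcomp (fun a ha h => ?_) x hx
  by_cases h1 : (1 : ZMod M) = 0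
  · left
    rw [← mul_one a, h1, mul_zero]
  · exact iact_inj_of_exp P hexp a 1 ha h1 h

/-! ### the converse: `F₁` is fixed by `Γ₁(M)` -/

theorem iact_smul_P_of_mem_Gamma1
    (hcomp : ∀ g ∈ CongruenceSubgroup.Gamma0 M, ∀ a : ZMod M, a ≠ 0 →
      compSL g (P a : ℍ → ℂ) = (P (a * ((g 0 0 : ℤ) : ZMod M)) : ℍ → ℂ))
    {γ : SL(2, ℤ)} (hγ : γ ∈ CongruenceSubgroup.Gamma1 M) {a : ZMod M} (ha : a ≠ 0) :
    γ • P a = P a := by
  have hγinv : γ⁻¹ ∈ CongruenceSubgroup.Gamma1 M := inv_mem hγ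
  have e3 := hcomp γ⁻¹ (iact_Gamma1_le_Gamma0 hγinv) a ha
  rw [((CongruenceSubgroup.Gamma1_mem M γ⁻¹).mp hγinv).1, mul_one] at e3
  exact Subtype.ext e3

theorem iactB_fix_F0 (b : IActField ι M ≃+* IActField ι M) (hb : b ∈ iactB ι M)
    (x : IActField ι M) (hx : x ∈ iactF0 ζ hζ) : b x = x := by
  obtain ⟨γ, hγ, rfl⟩ := hb
  have hle : iactF0 ζ hζ ≤
      RingHom.eqLocusField ((iactRho ι M γ : IActField ι M ≃+* IActField ι M) :
        IActField ι M →+* IActField ι M) (RingHom.id _) := by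
    rw [iactF0, Subfield.closure_le]
    rintro y (⟨c, rfl⟩ | ⟨d, hd, rfl⟩)
    · exact iactG_fix_C _ ⟨γ, rfl⟩ c
    · show γ • iactFJd ζ hζ d hd = iactFJd ζ hζ d hd
      rw [iactFJd, iact_smul_algebraMap, iact_smul_Jd_of_mem_Gamma0 ζ hζ hγ]
  exact hle hx

theorem iactB1_fix
    (hcomp : ∀ g ∈ CongruenceSubgroup.Gamma0 M, ∀ a : ZMod M, a ≠ 0 →
      compSL g (P a : ℍ → ℂ) = (P (a * ((g 0 0 : ℤ) : ZMod M)) : ℍ → ℂ))
    (b : IActField ι M ≃+* IActField ι M) (hb : b ∈ iactB1 ι M)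
    (x : IActField ι M) (hx : x ∈ iactF1 ζ hζ P) : b x = x := by
  have hbB : b ∈ iactB ι M := iactB1_le_B hb
  obtain ⟨γ, hγ, rfl⟩ := hb
  have hle : iactF1 ζ hζ P ≤
      RingHom.eqLocusField ((iactRho ι M γ : IActField ι M ≃+* IActField ι M) :
        IActField ι M →+* IActField ι M) (RingHom.id _) := by
    rw [iactF1, Subfield.closure_le]
    rintro y (hy | ⟨a, ha, rfl⟩)
    · exact iactB_fix_F0 ζ hζ _ hbB y hy
    · show γ • algebraMap (iactRing ι M) (IActField ι M) (P a) = _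
      rw [iact_smul_algebraMap, iact_smul_P_of_mem_Gamma1 P hcomp hγ ha]
      rfl
  exact hle hx

/-- **The fixed field of `Γ₁(M)`** in `IActField ι M` is `E(j(dτ), P_a)`. -/
theorem iactB1_fixed_iff
    (hcomp : ∀ g ∈ CongruenceSubgroup.Gamma0 M, ∀ a : ZMod M, a ≠ 0 →
      compSL g (P a : ℍ → ℂ) = (P (a * ((g 0 0 : ℤ) : ZMod M)) : ℍ → ℂ))
    (hexp : ∀ a : ZMod M, a ≠ 0 → iactExp ι M (P a) = qExpand E M (F1.divGenC E M a))
    (x : IActField ι M) :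
    x ∈ iactF1 ζ hζ P ↔ ∀ b ∈ iactB1 ι M, b x = x :=
  ⟨fun hx b hb => iactB1_fix ζ hζ P hcomp b hb x hx,
    fun hx => iactB1_inv_of_exp ζ hζ P hcomp hexp x hx⟩

end Fermat.Agent.S48.H496
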