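import Fermat.Agent.S48.H496.F1Exp
import Fermat.Agent.S48.H76.Avatar
import Fermat.Agent.S48.Kum.Top
import Fermat.Agent.S48.Kum.Basic
import Fermat.Agent.S29.H882.Inter
import Fermat.Agent.S29.H332.KummerFun
import Fermat.Agent.S24.D5.H108Growth
import Fermat.Agent.S28.H748.Conj
import Fermat.Agent.S29.H282.K2Ana

/-!
# S48 / Tower A1 / A1-KUM leaf `inter` (helper496): `DictInter (Γ₁(M)) (ℚ̄·F₁(M))`

A good function for `Γ₁(M)` (holomorphic, invariant, all translates of exponential growth) whose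
`q`-expansion has coefficients in `ℚ̄` has its `q`-expansion in `ℚ̄ · F1(M)`.

Route: over `E = ℂ` (`ι = id`) a good function and the avatars `H76.pFun M a` lie in
`H828.iactRing id M`; by I-F1 (`IF1.lean`, `F1Exp.lean`) a `Γ₁(M)`-invariant element has its
expansion in `ℂ · F1(M)`; descent `ℂ → ℚ̄` is `S29.H882.mem_laurentBaseChange_of_coeffMap_mem`.

* `exists_infExp_of_periodic` : holomorphic + `M`-periodic + exponential growth ⇒ `X`-expansion;
* `mem_holN_of_isGood` : good functions for `Γ₁(M)` lie in `S24.H997.holN M`;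
* `qexp_mem_of_isGood` : the `ℂ`-form of DICT1;
* `dictInter1` : `Kum.DictInter (Gamma1 M) (F1.F1Bar M)` VERBATIM.
-/

set_option autoImplicit false
set_option linter.unusedSectionVars false

noncomputable section

open ModularCurve HahnSeries UpperHalfPlane CongruenceSubgroup
open scoped MatrixGroups Manifold

namespace Fermat.Agent.S48.H496

open Fermat.Agent.S24 Fermat.Agent.S24.H997 Fermat.Agent.S24.H624 Fermat.Agent.S20.L1
open Fermat.Agent.S48.H828 Fermat.Agent.S29 Fermat.Agent.S48.H76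

local notation "Δ" => ModularForm.discriminant

variable {M : ℕ} [NeZero M]

/-! ### expansions from growth -/

/-- A holomorphic function on `ℍ`, periodic of period `M` and of at most exponential growth, has
a Laurent expansion in `X = exp(2πiτ/M)`. -/
theorem exists_infExp_of_periodic {F : ℍ → ℂ} (hol : MDiff F)
    (hper : ∀ τ : ℍ, F (((M : ℤ) : ℝ) +ᵥ τ) = F τ) (hgr : H648.ExpGrowth F) :
    ∃ φ : LaurentSeries ℂ, InfExp M F φ := by
  obtain ⟨C, m, hC⟩ := hgr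
  have hN : (0 : ℝ) < M := by exact_mod_cast Nat.pos_of_ne_zero (NeZero.ne M)
  have hbd0 : IsBoundedAtImInfty (fun τ => F τ * Δ τ ^ m) :=
    H108.isBoundedAtImInfty_mul_discriminant_pow_of_exp_growth ⟨C, 1, hC⟩
  set F' : ℍ → ℂ := fun τ => Δ τ ^ m * F τ with hF'
  have hbd : IsBoundedAtImInfty F' := by
    have e : F' = fun τ => F τ * Δ τ ^ m := by
      funext τ
      simp only [hF']
      ring
    rw [e]
    exact hbd0
  have hFhol : MDiff F' := (H332.mdiff_delta_pow m).mul hol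
  have hFper : Function.Periodic (F' ∘ ofComplex) (M : ℝ) := by
    intro z
    have h1 := H332.periodic_comp_ofComplex_of_vadd (f := F) (N := M) hper z
    have h2 := H332.periodic_comp_ofComplex_of_vadd (f := Δ) (N := M)
      (fun τ => H332.delta_vadd M τ) z
    simp only [Function.comp_apply, hF'] at h1 h2 ⊢
    rw [h1, h2]
  have hsum := fun τ => UpperHalfPlane.hasSum_qExpansion hN hFper hFhol hbd τ
  have hP : InfPExp M F' (UpperHalfPlane.qExpansion (M : ℝ) F') := by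
    intro τ
    simpa [infZ, smul_eq_mul] using hsum τ
  have hE : InfExp M F' (HahnSeries.ofPowerSeries ℤ ℂ (UpperHalfPlane.qExpansion (M : ℝ) F')) := by
    have := hP.infExp 0
    simp only [zpow_zero, one_mul] at this
    have e : (HahnSeries.single (0 : ℤ) (1 : ℂ)) = 1 := rfl
    rwa [e, one_mul] at this
  have hDinv : InfExp M (fun τ => (Δ τ)⁻¹ ^ m)
      (qExpand ℂ M Fermat.Agent.S28.H568.dInvS ^ m) :=
    Fermat.Agent.S28.H568.InfExp.pow' (H332.infExp_deltaInv M) m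
  have e : ∀ τ, (Δ τ)⁻¹ ^ m * F' τ = F τ := by
    intro τ
    simp only [hF']
    have hΔ : Δ τ ≠ 0 := ModularForm.discriminant_ne_zero τ
    rw [← mul_assoc, ← mul_pow, inv_mul_cancel₀ hΔ, one_pow, one_mul]
  have h := hDinv.mul hE
  exact ⟨_, h.congr e⟩

/-! ### good functions for `Γ₁(M)` -/

theorem Gamma_le_Gamma1_496 {γ : SL(2, ℤ)} (hγ : γ ∈ Gamma M) : γ ∈ Gamma1 M := by
  rw [Gamma_mem] at hγ
  rw [Gamma1_mem]
  exact ⟨hγ.1, hγ.2.2.2, hγ.2.2.1⟩

theorem T_zpow_mem_Gamma_496 (M : ℕ) : ModularGroup.T ^ (M : ℤ) ∈ Gamma M := by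
  rw [Gamma_mem, ModularGroup.coe_T_zpow]
  simp

theorem compSL_vadd_of_invariant {G : ℍ → ℂ}
    (hinv : ∀ γ ∈ Gamma1 M, ∀ τ : ℍ, G (γ • τ) = G τ) (g : SL(2, ℤ)) (τ : ℍ) :
    compSL g G (((M : ℤ) : ℝ) +ᵥ τ) = compSL g G τ := by
  have hn : g * ModularGroup.T ^ (M : ℤ) * g⁻¹ ∈ Gamma M :=
    (CongruenceSubgroup.Gamma_normal M).conj_mem _ (T_zpow_mem_Gamma_496 M) g
  have h := hinv _ (Gamma_le_Gamma1_496 hn) (g • τ)
  rw [← UpperHalfPlane.modular_T_zpow_smul]
  show G (g • (ModularGroup.T ^ (M : ℤ) • τ)) = G (g • τ)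
  rw [← h, ← mul_smul, ← mul_smul]
  congr 2
  group

/-- A good function for `Γ₁(M)` lies in the S24 ring `holN M`. -/
theorem mem_holN_of_isGood {G : ℍ → ℂ} (hG : Kum.IsGood (Gamma1 M) G) : G ∈ holN M := by
  refine ⟨hG.1, fun g => ?_⟩
  have hol : MDiff (compSL g G) := (precompSL g ⟨G, hG.1⟩).2
  exact exists_infExp_of_periodic hol (compSL_vadd_of_invariant hG.2.1 g) (hG.2.2 g)

/-! ### the ring `iactRing id M` over `ℂ` -/

theorem mem_iactRing_id {f : ℍ → ℂ} (hf : f ∈ holN M)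
    (hinv : ∀ γ ∈ Gamma1 M, ∀ τ : ℍ, f (γ • τ) = f τ) : f ∈ iactRing (RingHom.id ℂ) M := by
  refine ⟨hf.1, fun γ hγ => ?_, fun γ => ?_⟩
  · funext τ
    exact hinv γ (Gamma_le_Gamma1_496 hγ) τ
  · obtain ⟨φ, hφ⟩ := hf.2 γ
    exact ⟨φ, by rw [coeffMap_id]; exact hφ⟩

variable (M) in
/-- The avatars `P_a` as elements of `iactRing id M`. -/
def pAvC (a : ZMod M) : iactRing (RingHom.id ℂ) M :=
  ⟨pFun M a, mem_iactRing_id (pFun_mem_holN M a) (fun γ hγ τ => pFun_smul_Gamma1 M a γ hγ τ)⟩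

theorem pAvC_comp (g : SL(2, ℤ)) (hg : g ∈ Gamma0 M) (a : ZMod M) (_ : a ≠ 0) :
    compSL g (pAvC M a : ℍ → ℂ) = (pAvC M (a * ((g 0 0 : ℤ) : ZMod M)) : ℍ → ℂ) :=
  compSL_pFun M a g hg

theorem pAvC_exp (a : ZMod M) (ha : a ≠ 0) :
    iactExp (RingHom.id ℂ) M (pAvC M a) = qExpand ℂ M (F1.divGenC ℂ M a) := by
  apply iactExp_eq
  rw [coeffMap_id]
  exact Fermat.Agent.S28.H748.infExp_level (infExp_pFun M ha)

theorem infRoot_id_496 :
    Units.map ((RingHom.id ℂ : ℂ →+* ℂ) : ℂ →* ℂ) (infRoot 1 M) = infRoot 1 M :=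
  Units.ext rfl

/-! ### DICT1 over `ℂ` and over `ℚ̄` -/

/-- **DICT1, `ℂ`-form**: the `q`-expansion of a good function for `Γ₁(M)` lies in `ℂ · F1(M)`. -/
theorem qexp_mem_of_isGood {G : ℍ → ℂ} (hG : Kum.IsGood (Gamma1 M) G) :
    H708.qexpFun 1 G ∈ laurentBaseChange ℂ (F1.F1 M) := by
  have hT : ModularGroup.T ∈ Gamma1 M := by
    rw [Gamma1_mem]
    simp [ModularGroup.T]
  have hq := hG.hasQExp hT
  have hmem : G ∈ iactRing (RingHom.id ℂ) M := mem_iactRing_id (mem_holN_of_isGood hG) hG.2.1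
  refine dict1_ring (ι := RingHom.id ℂ) (infRoot 1 M) infRoot_id_496 (pAvC M) pAvC_comp pAvC_exp
    ⟨G, hmem⟩ ?_ (H708.qexpFun 1 G) ?_
  · intro γ hγ
    apply Subtype.ext
    funext τ
    rw [iact_smul_apply]
    exact hG.2.1 γ⁻¹ (inv_mem hγ) τ
  · apply iactExp_eq
    rw [coeffMap_id]
    exact Fermat.Agent.S29.H282.infExp_level_of_hasQExp hq

/-- **Kum leaf `inter`**, verbatim. -/
theorem dictInter1 (M : ℕ) [NeZero M] : Kum.DictInter (Gamma1 M) (F1.F1Bar M) := by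
  intro G s hG hs
  have h := qexp_mem_of_isGood hG
  rw [hs] at h
  exact Fermat.Agent.S29.H882.mem_laurentBaseChange_of_coeffMap_mem Deg457.iotaC (F1.F1 M) h

end Fermat.Agent.S48.H496
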